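import Mathlib
import Fermat.Agent.H62.Cheb2.Interfaces
import Fermat.Agent.H87.Cheb.Crossing3

/-!
# P-CHEB phase 2, CH2-CROSS (b): field theory of the crossing `M = L(ζ_m)`

`L/ℚ` Galois, `m` prime, `M = L(ζ_m)` of degree `m - 1` over `L`, `σ ∈ Gal(L/ℚ)`,
`g ∈ Gal(M/ℚ)` extending `σ` and acting on `ζ` through `τ ∈ (ZMod m)ˣ`.

* `faithful_of_dvd_orderOf`: if `orderOf σ ∣ orderOf τ`, then `⟨g⟩` acts faithfully on `ζ`;
* `card_centralizer_le`: `|Z(g)| ≤ |Z(σ)| (m - 1)`;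
* `isFrobAt_comap`: a Frobenius prime for `g` restricts to a Frobenius prime for `σ`;
* `natCast_eq_of_isFrobAt`: if `g` is a Frobenius at a prime over `p ≠ m`, then `p = τ` in `ZMod m`.
-/

set_option autoImplicit false

open scoped NumberField

namespace Fermat.Agent.H5.Cheb2

open Fermat.Agent.H62.Cheb2 Fermat.Agent.H87.Cheb

section

variable {L : Type} [Field L] [NumberField L] {m : ℕ} [hm : Fact m.Prime]
  {M : Type} [Field M] [NumberField M] [Algebra L M] [IsCyclotomicExtension {m} L M]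

/-- the action of `g` on `ζ` in terms of `autToPow` -/
theorem apply_zeta_eq {ζ : M} (hζ : IsPrimitiveRoot ζ m) (g : M ≃ₐ[ℚ] M) (τ : (ZMod m)ˣ)
    (hgτ : hζ.autToPow ℚ g = τ) : g ζ = ζ ^ (τ : ZMod m).val := by
  rw [← hgτ]
  exact (hζ.autToPow_spec ℚ g).symm

/-- If `orderOf σ ∣ orderOf τ`, the group generated by `g = (σ, τ)` acts faithfully on `ζ`. -/
theorem faithful_of_dvd_orderOf {ζ : M} (hζ : IsPrimitiveRoot ζ m) (σ : L ≃ₐ[ℚ] L)
    (g : M ≃ₐ[ℚ] M) (τ : (ZMod m)ˣ)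
    (hgL : ∀ x : L, g (algebraMap L M x) = algebraMap L M (σ x))
    (hgτ : hζ.autToPow ℚ g = τ) (hgood : orderOf σ ∣ orderOf τ) :
    ∀ h ∈ Subgroup.zpowers g, h ζ = ζ → h = 1 := by
  intro h hh hfix
  obtain ⟨j, rfl⟩ := (mem_powers_iff_mem_zpowers.mpr hh)
  have hspec : (g ^ j) ζ = ζ ^ ((τ ^ j : (ZMod m)ˣ) : ZMod m).val := by
    rw [← hgτ, ← map_pow]
    exact (hζ.autToPow_spec ℚ (g ^ j)).symm
  have h1 : ((τ ^ j : (ZMod m)ˣ) : ZMod m).val = 1 := by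
    have h2 : ζ ^ ((τ ^ j : (ZMod m)ˣ) : ZMod m).val = ζ ^ 1 := by
      rw [← hspec, hfix, pow_one]
    exact hζ.pow_inj (ZMod.val_lt _) hm.out.one_lt h2
  have : Fact (1 < m) := ⟨hm.out.one_lt⟩
  have h3 : (τ ^ j : (ZMod m)ˣ) = 1 := by
    apply Units.ext
    apply ZMod.val_injective m
    rw [h1, Units.val_one, ZMod.val_one]
  have h4 : orderOf σ ∣ j := hgood.trans (orderOf_dvd_of_pow_eq_one h3)
  apply algEquiv_ext_of_adjoin (L := L) hζ
  · intro x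
    rw [pow_apply_algebraMap σ g hgL, orderOf_dvd_iff_pow_eq_one.mp h4]
    simp
  · rw [hfix]
    simp

variable [IsGalois ℚ L]

/-- the restriction of an extension of `σ` is `σ` -/
theorem restrictNormalHom_eq (σ : L ≃ₐ[ℚ] L) (g : M ≃ₐ[ℚ] M)
    (hgL : ∀ x : L, g (algebraMap L M x) = algebraMap L M (σ x)) :
    AlgEquiv.restrictNormalHom L g = σ := by
  ext x
  apply (algebraMap L M).injective
  exact (AlgEquiv.restrictNormal_commutes g L x).trans (hgL x)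

/-- `|Z(g)| ≤ |Z(σ)| (m - 1)` for an extension `g` of `σ` to `M = L(ζ_m)`. -/
theorem card_centralizer_le {ζ : M} (hζ : IsPrimitiveRoot ζ m) (σ : L ≃ₐ[ℚ] L)
    (g : M ≃ₐ[ℚ] M) (hgL : ∀ x : L, g (algebraMap L M x) = algebraMap L M (σ x)) :
    Nat.card (Subgroup.centralizer ({g} : Set (M ≃ₐ[ℚ] M))) ≤
      Nat.card (Subgroup.centralizer ({σ} : Set (L ≃ₐ[ℚ] L))) * (m - 1) := by
  have hres : AlgEquiv.restrictNormalHom L g = σ := restrictNormalHom_eq σ g hgL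
  have hmem : ∀ h : Subgroup.centralizer ({g} : Set (M ≃ₐ[ℚ] M)),
      AlgEquiv.restrictNormalHom L (h : M ≃ₐ[ℚ] M) ∈
        Subgroup.centralizer ({σ} : Set (L ≃ₐ[ℚ] L)) := by
    intro h
    have h1 := h.2
    rw [Subgroup.mem_centralizer_iff] at h1 ⊢
    intro s hs
    rw [Set.mem_singleton_iff] at hs
    subst hs
    have h2 := h1 g (Set.mem_singleton g)
    have h3 := congrArg (AlgEquiv.restrictNormalHom L) h2
    rw [map_mul, map_mul, hres] at h3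
    exact h3
  let f : Subgroup.centralizer ({g} : Set (M ≃ₐ[ℚ] M)) →
      Subgroup.centralizer ({σ} : Set (L ≃ₐ[ℚ] L)) × (ZMod m)ˣ :=
    fun h => (⟨AlgEquiv.restrictNormalHom L (h : M ≃ₐ[ℚ] M), hmem h⟩, hζ.autToPow ℚ (h : M ≃ₐ[ℚ] M))
  have hf : Function.Injective f := by
    intro h₁ h₂ h12
    have ha : AlgEquiv.restrictNormalHom L (h₁ : M ≃ₐ[ℚ] M) =
        AlgEquiv.restrictNormalHom L (h₂ : M ≃ₐ[ℚ] M) := by
      have := congrArg (fun z => (z.1 : L ≃ₐ[ℚ] L)) h12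
      exact this
    have hb : hζ.autToPow ℚ (h₁ : M ≃ₐ[ℚ] M) = hζ.autToPow ℚ (h₂ : M ≃ₐ[ℚ] M) :=
      congrArg Prod.snd h12
    apply Subtype.ext
    apply algEquiv_ext_of_adjoin (L := L) hζ
    · intro x
      rw [← AlgEquiv.restrictNormal_commutes (h₁ : M ≃ₐ[ℚ] M) L x,
        ← AlgEquiv.restrictNormal_commutes (h₂ : M ≃ₐ[ℚ] M) L x]
      have := congrArg (fun z : L ≃ₐ[ℚ] L => z x) ha
      exact congrArg (algebraMap L M) this
    · rw [← hζ.autToPow_spec ℚ (h₁ : M ≃ₐ[ℚ] M), ← hζ.autToPow_spec ℚ (h₂ : M ≃ₐ[ℚ] M), hb]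
  have hcard := Nat.card_le_card_of_injective f hf
  rw [Nat.card_prod] at hcard
  have hU : Nat.card (ZMod m)ˣ = m - 1 := by
    rw [Nat.card_eq_fintype_card, ZMod.card_units_eq_totient, Nat.totient_prime hm.out]
  rw [hU] at hcard
  exact hcard

omit [IsGalois ℚ L] in
/-- A Frobenius prime of `M` for `g` lies over a Frobenius prime of `L` for `σ = g|L`. -/
theorem isFrobAt_comap (σ : L ≃ₐ[ℚ] L) (g : M ≃ₐ[ℚ] M)
    (hgL : ∀ x : L, g (algebraMap L M x) = algebraMap L M (σ x)) (p : ℕ) (v : Ideal (𝓞 M))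
    (hv : IsFrobAt M g p v) : IsFrobAt L σ p (v.comap (algebraMap (𝓞 L) (𝓞 M))) := by
  obtain ⟨hprime, hpv, hfrob⟩ := hv
  refine ⟨Ideal.comap_isPrime _ _, ?_, ?_⟩
  · rw [Ideal.mem_comap]
    simpa using hpv
  · intro x
    rw [Ideal.mem_comap, map_sub, map_pow]
    have h5 := hfrob (algebraMap (𝓞 L) (𝓞 M) x)
    have h6 : algebraMap (𝓞 L) (𝓞 M) (NumberField.RingOfIntegers.mapRingEquiv σ.toRingEquiv x) =
        NumberField.RingOfIntegers.mapRingEquiv g.toRingEquiv (algebraMap (𝓞 L) (𝓞 M) x) := by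
      apply NumberField.RingOfIntegers.ext
      have h7 : g (algebraMap L M (x : L)) = algebraMap L M (σ (x : L)) := hgL x
      change algebraMap L M (σ (x : L)) = g (algebraMap L M (x : L))
      rw [h7]
    rw [h6]
    exact h5

end

section

variable {m : ℕ} [hm : Fact m.Prime] {M : Type} [Field M] [NumberField M]

/-- If `g` is a Frobenius at a prime of `M` over `p ≠ m` and `g ζ = ζ ^ τ`, then `p = τ` in
`ZMod m`. -/
theorem natCast_eq_of_isFrobAt {ζ : M} (hζ : IsPrimitiveRoot ζ m) (g : M ≃ₐ[ℚ] M)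
    (τ : (ZMod m)ˣ) (hgτ : hζ.autToPow ℚ g = τ) (p : ℕ) (hp : p.Prime) (hpm : p ≠ m)
    (v : Ideal (𝓞 M)) (hv : IsFrobAt M g p v) : ((p : ℕ) : ZMod m) = (τ : ZMod m) := by
  obtain ⟨hprime, hpv, hfrob⟩ := hv
  have hmprime : m.Prime := hm.out
  -- `m ∉ v`
  have hmv : ((m : ℕ) : 𝓞 M) ∉ v := by
    intro hmv
    have hcop : Nat.Coprime m p := (Nat.coprime_primes hmprime hp).mpr (Ne.symm hpm)
    have h1 : ((Nat.gcd m p : ℕ) : 𝓞 M) ∈ v := by
      have hb := Nat.gcd_eq_gcd_ab m p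
      have h2 : (((Nat.gcd m p : ℕ) : ℤ) : 𝓞 M) ∈ v := by
        rw [hb]
        push_cast
        exact v.add_mem (v.mul_mem_right _ hmv) (v.mul_mem_right _ hpv)
      simpa using h2
    rw [hcop] at h1
    exact hprime.ne_top (v.eq_top_of_isUnit_mem (by simpa using h1) isUnit_one)
  -- the residue cardinality
  have hp' : Prime (p : ℤ) := Nat.prime_iff_prime_int.mp hp
  have hlo : v.LiesOver (Ideal.span {(p : ℤ)}) :=
    (Ideal.liesOver_span_iff hprime.ne_top hp').mpr (by simpa using hpv)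
  have hcard : Nat.card (ℤ ⧸ Ideal.under ℤ v) = p := by
    rw [← hlo.over]
    rw [← Submodule.cardQuot_apply, ← Ideal.absNorm_apply, Ideal.absNorm_span_singleton]
    simp
  -- the algebra homomorphism
  let φ : 𝓞 M →ₐ[ℤ] 𝓞 M :=
    (NumberField.RingOfIntegers.mapRingEquiv g.toRingEquiv).toRingHom.toIntAlgHom
  have hφ : φ.IsArithFrobAt v := by
    intro x
    rw [hcard]
    exact hfrob x
  have hζ'pow : hζ.toInteger ^ m = 1 := hζ.toInteger_isPrimitiveRoot.pow_eq_one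
  have h1 := AlgHom.IsArithFrobAt.apply_of_pow_eq_one hφ hζ'pow hmv
  rw [hcard] at h1
  have h2 : g ζ = ζ ^ p := by
    have h1' := congrArg (algebraMap (𝓞 M) M) h1
    rw [map_pow] at h1'
    exact h1'
  have h3 : g ζ = ζ ^ (τ : ZMod m).val := by
    rw [← hgτ]
    exact (hζ.autToPow_spec ℚ g).symm
  have h4 : ζ ^ (p % m) = ζ ^ (τ : ZMod m).val := by
    rw [← pow_eq_pow_mod p hζ.pow_eq_one, ← h2, h3]
  have h5 : p % m = (τ : ZMod m).val :=
    hζ.pow_inj (Nat.mod_lt _ hmprime.pos) (ZMod.val_lt _) h4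
  have h6 : ((p : ℕ) : ZMod m) = (((τ : ZMod m).val : ℕ) : ZMod m) := by
    rw [← h5]
    simp
  rw [h6, ZMod.natCast_zmod_val]

end

end Fermat.Agent.H5.Cheb2
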