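import Mathlib

/-!
# P-CHEB phase 2, CH2-CROSS (a): counting the units of `ZMod m` whose order is divisible by `n`

For a prime `m ≡ 1 mod n ^ k` all but a proportion `≤ n / 2 ^ k` of the units `τ` of `ZMod m` have
order divisible by `n`.
-/

set_option autoImplicit false

open Finset

namespace Fermat.Agent.H5.Cheb2

/-- If `n ^ k ∣ N`, `t ∣ N` and `n ∤ t`, then `t ∣ N / ℓ ^ k` for some prime `ℓ ∣ n`. -/
theorem exists_prime_dvd_div_pow (n k N t : ℕ) (hk : 0 < k) (hN : N ≠ 0) (hdiv : n ^ k ∣ N)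
    (ht : t ∣ N) (hnt : ¬ n ∣ t) : ∃ ℓ ∈ n.primeFactors, t ∣ N / ℓ ^ k := by
  have hn0 : n ≠ 0 := by
    rintro rfl
    rw [zero_pow hk.ne'] at hdiv
    exact hN (Nat.eq_zero_of_zero_dvd hdiv)
  have ht0 : t ≠ 0 := by
    rintro rfl
    exact hN (Nat.eq_zero_of_zero_dvd ht)
  have h1 : ¬ ∀ p : ℕ, p.Prime → n.factorization p ≤ t.factorization p := by
    rw [Nat.factorization_prime_le_iff_dvd hn0 ht0]
    exact hnt
  push Not at h1
  obtain ⟨ℓ, hℓ, hlt⟩ := h1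
  have hℓn : ℓ ∣ n := by
    by_contra h
    rw [Nat.factorization_eq_zero_of_not_dvd h] at hlt
    omega
  refine ⟨ℓ, Nat.mem_primeFactors.mpr ⟨hℓ, hℓn, hn0⟩, ?_⟩
  have hℓk : ℓ ^ k ∣ N := (pow_dvd_pow_of_dvd hℓn k).trans hdiv
  have hN1 : N / ℓ ^ k ≠ 0 := by
    intro h
    have := Nat.div_mul_cancel hℓk
    rw [h, zero_mul] at this
    exact hN this.symm
  rw [← Nat.factorization_prime_le_iff_dvd ht0 hN1]
  intro q hq
  rw [Nat.factorization_div hℓk, Nat.Prime.factorization_pow hℓ]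
  have hle : t.factorization q ≤ N.factorization q :=
    (Nat.factorization_le_iff_dvd ht0 hN).mpr ht q
  by_cases hqℓ : q = ℓ
  · subst hqℓ
    simp only [Finsupp.coe_tsub, Pi.sub_apply, Finsupp.single_eq_same]
    have h2 : (n ^ k).factorization q ≤ N.factorization q :=
      (Nat.factorization_le_iff_dvd (pow_ne_zero k hn0) hN).mpr hdiv q
    rw [Nat.factorization_pow] at h2
    simp only [Finsupp.coe_smul, Pi.smul_apply, smul_eq_mul] at h2
    have h3 : k * (t.factorization q + 1) ≤ k * n.factorization q :=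
      Nat.mul_le_mul_left k hlt
    have h4 : t.factorization q ≤ k * t.factorization q := Nat.le_mul_of_pos_left _ hk
    have h5 : k * (t.factorization q + 1) = k * t.factorization q + k := by ring
    omega
  · simp only [Finsupp.coe_tsub, Pi.sub_apply]
    rw [Finsupp.single_eq_of_ne (by simpa using hqℓ)]
    simpa using hle

/-- In a finite group of order `N` with `n ^ k ∣ N`: if `n ∤ orderOf τ` then
`τ ^ (N / ℓ ^ k) = 1` for some prime `ℓ ∣ n`. -/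
theorem exists_prime_pow_eq_one_of_not_dvd_orderOf {G : Type*} [Group G] [Fintype G]
    (n k : ℕ) (hk : 0 < k) (hdiv : n ^ k ∣ Fintype.card G) (τ : G) (hτ : ¬ n ∣ orderOf τ) :
    ∃ ℓ ∈ n.primeFactors, τ ^ (Fintype.card G / ℓ ^ k) = 1 := by
  obtain ⟨ℓ, hℓ, hdvd⟩ := exists_prime_dvd_div_pow n k (Fintype.card G) (orderOf τ) hk
    Fintype.card_ne_zero hdiv (orderOf_dvd_card) hτ
  exact ⟨ℓ, hℓ, orderOf_dvd_iff_pow_eq_one.mp hdvd⟩

/-- The number of prime factors of `n` is at most `n`. -/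
theorem card_primeFactors_le_self (n : ℕ) : n.primeFactors.card ≤ n := by
  have h : n.primeFactors ⊆ Finset.Icc 1 n := by
    intro ℓ hℓ
    rw [Nat.mem_primeFactors] at hℓ
    rw [Finset.mem_Icc]
    exact ⟨hℓ.1.one_le, Nat.le_of_dvd (Nat.pos_of_ne_zero hℓ.2.2) hℓ.2.1⟩
  calc n.primeFactors.card ≤ (Finset.Icc 1 n).card := Finset.card_le_card h
    _ = n := by simp

/-- **Counting of the bad units.** For a prime `m` with `n ^ k ∣ m - 1`, the number of units of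
`ZMod m` whose order is not divisible by `n` is at most `n (m - 1) / 2 ^ k`. -/
theorem card_bad_units_le (m : ℕ) [hm : Fact m.Prime] (n k : ℕ) (hk : 0 < k)
    (hdiv : n ^ k ∣ m - 1) :
    (((Finset.univ : Finset (ZMod m)ˣ).filter (fun τ => ¬ n ∣ orderOf τ)).card : ℝ) ≤
      (n : ℝ) * ((m - 1 : ℕ) : ℝ) / 2 ^ k := by
  classical
  have hcard : Fintype.card (ZMod m)ˣ = m - 1 := by
    rw [ZMod.card_units_eq_totient, Nat.totient_prime hm.out]
  have hN0 : 0 < m - 1 := Nat.sub_pos_of_lt hm.out.one_lt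
  have hsub : (Finset.univ : Finset (ZMod m)ˣ).filter (fun τ => ¬ n ∣ orderOf τ) ⊆
      n.primeFactors.biUnion
        (fun ℓ => (Finset.univ : Finset (ZMod m)ˣ).filter (fun τ => τ ^ ((m - 1) / ℓ ^ k) = 1)) := by
    intro τ hτ
    rw [Finset.mem_filter] at hτ
    obtain ⟨ℓ, hℓ, hpow⟩ := exists_prime_pow_eq_one_of_not_dvd_orderOf n k hk
      (by rw [hcard]; exact hdiv) τ hτ.2
    rw [Finset.mem_biUnion]
    refine ⟨ℓ, hℓ, ?_⟩
    rw [Finset.mem_filter]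
    refine ⟨Finset.mem_univ _, ?_⟩
    rw [hcard] at hpow
    exact hpow
  have h1 : ((Finset.univ : Finset (ZMod m)ˣ).filter (fun τ => ¬ n ∣ orderOf τ)).card ≤
      ∑ ℓ ∈ n.primeFactors,
        ((Finset.univ : Finset (ZMod m)ˣ).filter (fun τ => τ ^ ((m - 1) / ℓ ^ k) = 1)).card :=
    (Finset.card_le_card hsub).trans Finset.card_biUnion_le
  have h2 : ∀ ℓ ∈ n.primeFactors,
      ((((Finset.univ : Finset (ZMod m)ˣ).filter
        (fun τ => τ ^ ((m - 1) / ℓ ^ k) = 1)).card : ℕ) : ℝ) ≤ ((m - 1 : ℕ) : ℝ) / 2 ^ k := by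
    intro ℓ hℓ
    rw [Nat.mem_primeFactors] at hℓ
    have hℓk : ℓ ^ k ∣ m - 1 := (pow_dvd_pow_of_dvd hℓ.2.1 k).trans hdiv
    have hpos : 0 < (m - 1) / ℓ ^ k :=
      Nat.div_pos (Nat.le_of_dvd hN0 hℓk) (pow_pos hℓ.1.pos k)
    have h3 := IsCyclic.card_pow_eq_one_le (α := (ZMod m)ˣ) hpos
    have h4 : (((m - 1) / ℓ ^ k : ℕ) : ℝ) ≤ ((m - 1 : ℕ) : ℝ) / ((ℓ ^ k : ℕ) : ℝ) :=
      Nat.cast_div_le
    have h5 : ((m - 1 : ℕ) : ℝ) / ((ℓ ^ k : ℕ) : ℝ) ≤ ((m - 1 : ℕ) : ℝ) / 2 ^ k := by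
      apply div_le_div_of_nonneg_left (Nat.cast_nonneg _) (by positivity)
      push_cast
      exact pow_le_pow_left₀ (by norm_num) (by exact_mod_cast hℓ.1.two_le) k
    calc ((((Finset.univ : Finset (ZMod m)ˣ).filter
          (fun τ => τ ^ ((m - 1) / ℓ ^ k) = 1)).card : ℕ) : ℝ)
        ≤ (((m - 1) / ℓ ^ k : ℕ) : ℝ) := by exact_mod_cast h3
      _ ≤ _ := h4.trans h5
  calc (((Finset.univ : Finset (ZMod m)ˣ).filter (fun τ => ¬ n ∣ orderOf τ)).card : ℝ)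
      ≤ ((∑ ℓ ∈ n.primeFactors,
        ((Finset.univ : Finset (ZMod m)ˣ).filter
          (fun τ => τ ^ ((m - 1) / ℓ ^ k) = 1)).card : ℕ) : ℝ) := by exact_mod_cast h1
    _ = ∑ ℓ ∈ n.primeFactors, ((((Finset.univ : Finset (ZMod m)ˣ).filter
          (fun τ => τ ^ ((m - 1) / ℓ ^ k) = 1)).card : ℕ) : ℝ) := by push_cast; rfl
    _ ≤ ∑ _ℓ ∈ n.primeFactors, ((m - 1 : ℕ) : ℝ) / 2 ^ k := Finset.sum_le_sum h2
    _ = (n.primeFactors.card : ℝ) * (((m - 1 : ℕ) : ℝ) / 2 ^ k) := by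
      rw [Finset.sum_const, nsmul_eq_mul]
    _ ≤ (n : ℝ) * (((m - 1 : ℕ) : ℝ) / 2 ^ k) := by
      apply mul_le_mul_of_nonneg_right _ (by positivity)
      exact_mod_cast card_primeFactors_le_self n
    _ = (n : ℝ) * ((m - 1 : ℕ) : ℝ) / 2 ^ k := by ring

end Fermat.Agent.H5.Cheb2
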