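import Mathlib
import Fermat.Agent.H5.Cheb2.GoodUnits
import Fermat.Agent.H5.Cheb2.CrossField

/-!
# P-CHEB phase 2, CH2-CROSS: quantitative field crossing

`chebotarevElement : CycloDensityStatement → FrobCountStatement → ChebotarevElementStatement`.

For `σ ∈ Gal(L/ℚ)` of order `n` choose `k` with `n / 2 ^ k < ε / 2` and a prime `m ≡ 1 mod n ^ k`
not dividing the discriminant of `L`; put `M = L(ζ_m)`.  For every unit `τ` of `ZMod m` let
`g_τ ∈ Gal(M/ℚ)` be the extension of `σ` acting on `ζ_m` through `τ`.  For the good `τ` (those with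
`n ∣ orderOf τ`) the group `⟨g_τ⟩` acts faithfully on `ζ_m`, so the two hypotheses give
`frobSum M {g_τ} ≥ log(1/(s-1)) / |Z(g_τ)| - O(1)`; the sets `frobPrimes M {g_τ}` are pairwise
disjoint and contained in `frobPrimes L {σ}`, and `|Z(g_τ)| ≤ |Z(σ)| (m - 1)`.
-/

set_option autoImplicit false

open scoped NumberField

namespace Fermat.Agent.H5.Cheb2

open Fermat.Agent.H62.Cheb2 Fermat.Agent.H62.Cheb Fermat.Agent.H87.Cheb

/-- the general term of `frobSum` -/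
noncomputable def frobTerm (K : Type) [Field K] [NumberField K] (C : Set (K ≃ₐ[ℚ] K))
    (T : Finset ℕ) (s : ℝ) (p : Nat.Primes) : ℝ :=
  open scoped Classical in
  if p ∈ frobPrimes K C ∧ (p : ℕ) ∉ T then ((p : ℕ) : ℝ) ^ (-s) else 0

theorem frobSum_eq_tsum_frobTerm (K : Type) [Field K] [NumberField K] (C : Set (K ≃ₐ[ℚ] K))
    (T : Finset ℕ) (s : ℝ) : frobSum K C T s = ∑' p : Nat.Primes, frobTerm K C T s p := by
  unfold frobSum frobTerm
  rfl

theorem frobTerm_nonneg (K : Type) [Field K] [NumberField K] (C : Set (K ≃ₐ[ℚ] K))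
    (T : Finset ℕ) (s : ℝ) (p : Nat.Primes) : 0 ≤ frobTerm K C T s p := by
  unfold frobTerm
  split_ifs
  · positivity
  · exact le_rfl

theorem frobTerm_le (K : Type) [Field K] [NumberField K] (C : Set (K ≃ₐ[ℚ] K))
    (T : Finset ℕ) (s : ℝ) (p : Nat.Primes) : frobTerm K C T s p ≤ ((p : ℕ) : ℝ) ^ (-s) := by
  unfold frobTerm
  split_ifs
  · exact le_rfl
  · positivity

theorem summable_frobTerm (K : Type) [Field K] [NumberField K] (C : Set (K ≃ₐ[ℚ] K))
    (T : Finset ℕ) (s : ℝ) (hs : 1 < s) : Summable (frobTerm K C T s) :=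
  Summable.of_nonneg_of_le (frobTerm_nonneg K C T s) (frobTerm_le K C T s)
    (Nat.Primes.summable_rpow.mpr (by linarith))

theorem frobSum_nonneg (K : Type) [Field K] [NumberField K] (C : Set (K ≃ₐ[ℚ] K))
    (T : Finset ℕ) (s : ℝ) : 0 ≤ frobSum K C T s := by
  rw [frobSum_eq_tsum_frobTerm]
  exact tsum_nonneg (frobTerm_nonneg K C T s)

section

variable {L : Type} [Field L] [NumberField L] [IsGalois ℚ L] {m : ℕ} [hm : Fact m.Prime]
  {M : Type} [Field M] [NumberField M] [Algebra L M] [IsCyclotomicExtension {m} L M]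

omit [IsGalois ℚ L] [IsCyclotomicExtension {m} L M] in
/-- **Disjointness and containment.**  The sum over `τ` of the Frobenius sums of the extensions
`g_τ` of `σ` to `M = L(ζ_m)` is bounded by the Frobenius sum of `σ`. -/
theorem sum_frobSum_le {ζ : M} (hζ : IsPrimitiveRoot ζ m) (σ : L ≃ₐ[ℚ] L)
    (g : (ZMod m)ˣ → (M ≃ₐ[ℚ] M))
    (hgL : ∀ τ, ∀ x : L, g τ (algebraMap L M x) = algebraMap L M (σ x))
    (hgτ : ∀ τ, hζ.autToPow ℚ (g τ) = τ) (good : Finset (ZMod m)ˣ)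
    (T T' : Finset ℕ) (hT : T ⊆ T') (hmT : m ∈ T')
    (hdisc : ∀ p : ℕ, p.Prime → p ∉ T' → ¬ ((p : ℤ) ∣ NumberField.discr L))
    (s : ℝ) (hs : 1 < s) :
    ∑ τ ∈ good, frobSum M {g τ} T' s ≤ frobSum L {σ} T s := by
  classical
  simp only [frobSum_eq_tsum_frobTerm]
  rw [← Summable.tsum_finsetSum (fun τ _ => summable_frobTerm M {g τ} T' s hs)]
  refine Summable.tsum_le_tsum ?_ (summable_sum fun τ _ => summable_frobTerm M {g τ} T' s hs)
    (summable_frobTerm L {σ} T s hs)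
  intro p
  by_cases h : ∃ τ ∈ good, p ∈ frobPrimes M {g τ} ∧ (p : ℕ) ∉ T'
  · obtain ⟨τ₀, hτ₀, hp₀, hpT⟩ := h
    have hpm : (p : ℕ) ≠ m := fun hh => hpT (hh ▸ hmT)
    have hval : ∀ τ, p ∈ frobPrimes M {g τ} → ((p : ℕ) : ZMod m) = (τ : ZMod m) := by
      intro τ hτ
      obtain ⟨-, g', hg', v, hv⟩ := hτ
      rw [Set.mem_singleton_iff] at hg'
      subst hg'
      exact natCast_eq_of_isFrobAt hζ (g τ) τ (hgτ τ) p p.2 hpm v hv
    have huniq : ∀ τ ∈ good, τ ≠ τ₀ → frobTerm M {g τ} T' s p = 0 := by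
      intro τ _ hne
      unfold frobTerm
      rw [if_neg]
      rintro ⟨hp, -⟩
      exact hne (Units.ext ((hval τ hp).symm.trans (hval τ₀ hp₀)))
    rw [Finset.sum_eq_single_of_mem τ₀ hτ₀ huniq]
    have hL : p ∈ frobPrimes L {σ} := by
      refine ⟨hdisc p p.2 hpT, σ, Set.mem_singleton σ, ?_⟩
      obtain ⟨-, g', hg', v, hv⟩ := hp₀
      rw [Set.mem_singleton_iff] at hg'
      subst hg'
      exact ⟨_, isFrobAt_comap σ (g τ₀) (hgL τ₀) p v hv⟩
    have h1 : frobTerm L {σ} T s p = ((p : ℕ) : ℝ) ^ (-s) := by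
      unfold frobTerm
      rw [if_pos ⟨hL, fun hh => hpT (hT hh)⟩]
    rw [h1]
    exact frobTerm_le M _ T' s p
  · push Not at h
    rw [Finset.sum_eq_zero]
    · exact frobTerm_nonneg L _ T s p
    · intro τ hτ
      unfold frobTerm
      rw [if_neg]
      rintro ⟨hp, hpT⟩
      exact hpT (h τ hτ hp)

end

/-- The lower bound for one crossing automorphism: if `⟨g⟩` acts faithfully on `ζ_m`, then
`frobSum M {g} T' s ≥ log(1/(s-1)) / Zb - O(1)` for every bound `Zb ≥ |Z(g)|`. -/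
theorem frobSum_lower_of_faithful (hC : CycloDensityStatement) (hF : FrobCountStatement)
    {M : Type} [Field M] [NumberField M] [IsGalois ℚ M] {m : ℕ} [NeZero m] {ζ : M}
    (hζ : IsPrimitiveRoot ζ m) (g : M ≃ₐ[ℚ] M)
    (hfaith : ∀ h ∈ Subgroup.zpowers g, h ζ = ζ → h = 1) (a : ZMod m) (hga : g ζ = ζ ^ a.val)
    (T' : Finset ℕ) (Zb : ℝ)
    (hZb : (Nat.card (Subgroup.centralizer ({g} : Set (M ≃ₐ[ℚ] M))) : ℝ) ≤ Zb) :
    ∃ B δ : ℝ, 0 < δ ∧ ∀ s : ℝ, 1 < s → s < 1 + δ →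
      Real.log (1 / (s - 1)) / Zb - B ≤ frobSum M {g} T' s := by
  obtain ⟨BF, hBF⟩ := hF M m ζ hζ g hfaith a hga T'
  obtain ⟨BC, δC, hδC, hBC⟩ :=
    hC M m ζ hζ (Subgroup.zpowers g) hfaith g (Subgroup.mem_zpowers g) a hga
  refine ⟨(orderOf g : ℝ) * (|BC| + |BF|), min δC 1, lt_min hδC one_pos, fun s hs1 hs2 => ?_⟩
  have hsC : s < 1 + δC := lt_of_lt_of_le hs2 (by gcongr; exact min_le_left _ _)
  have hs2' : s < 1 + 1 := lt_of_lt_of_le hs2 (by gcongr; exact min_le_right _ _)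
  have hℓ0 : 0 ≤ Real.log (1 / (s - 1)) := by
    apply Real.log_nonneg
    rw [le_div_iff₀ (by linarith)]
    linarith
  have h1 := hBF s hs1
  have h2 := hBC s hs1 hsC
  rw [Nat.card_zpowers] at h2
  have ho : (0 : ℝ) < (orderOf g : ℝ) := by exact_mod_cast orderOf_pos g
  have hZ1 : (1 : ℝ) ≤ (Nat.card (Subgroup.centralizer ({g} : Set (M ≃ₐ[ℚ] M))) : ℝ) := by
    have : 0 < Nat.card (Subgroup.centralizer ({g} : Set (M ≃ₐ[ℚ] M))) := Nat.card_pos
    exact_mod_cast this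
  have hF0 : 0 ≤ frobSum M {g} T' s := frobSum_nonneg M _ T' s
  set c := classDegOneSum (IntermediateField.fixedField (Subgroup.zpowers g)) m a s with hc
  set ℓ := Real.log (1 / (s - 1)) with hℓ
  set Z' : ℝ := (Nat.card (Subgroup.centralizer ({g} : Set (M ≃ₐ[ℚ] M))) : ℝ) with hZ'
  set F := frobSum M {g} T' s with hFdef
  set o : ℝ := (orderOf g : ℝ) with hodef
  have h3 : 1 / o * ℓ - BC ≤ c := by
    have := (abs_le.mp h2).1
    linarith
  -- multiply by `o`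
  have h4 : ℓ - o * (BC + BF) ≤ Z' * F := by
    have h5 : o * (1 / o * ℓ - BC) ≤ o * (Z' / o * F + BF) :=
      mul_le_mul_of_nonneg_left (h3.trans h1) ho.le
    have h6 : o * (1 / o * ℓ - BC) = ℓ - o * BC := by
      field_simp
    have h7 : o * (Z' / o * F + BF) = Z' * F + o * BF := by
      field_simp
    rw [h6, h7] at h5
    linarith
  have hB0 : 0 ≤ o * (|BC| + |BF|) := by positivity
  have h8 : o * (BC + BF) ≤ o * (|BC| + |BF|) := by
    apply mul_le_mul_of_nonneg_left _ ho.le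
    exact add_le_add (le_abs_self _) (le_abs_self _)
  have hZb1 : 1 ≤ Zb := hZ1.trans hZb
  have hZb0 : 0 < Zb := by linarith
  have h9 : ℓ - o * (|BC| + |BF|) ≤ Zb * F := by
    have : Z' * F ≤ Zb * F := mul_le_mul_of_nonneg_right hZb hF0
    linarith
  have h10 : (ℓ - o * (|BC| + |BF|)) / Zb ≤ F := by
    rw [div_le_iff₀ hZb0]
    linarith
  have h11 : o * (|BC| + |BF|) / Zb ≤ o * (|BC| + |BF|) := div_le_self hB0 hZb1
  have h12 : (ℓ - o * (|BC| + |BF|)) / Zb = ℓ / Zb - o * (|BC| + |BF|) / Zb := by ring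
  linarith

/-- **CH2-CROSS**: Chebotarev's density theorem for one element, by the quantitative field
crossing with `ℚ(ζ_m)`. -/
theorem chebotarevElement (hC : CycloDensityStatement) (hF : FrobCountStatement) :
    ChebotarevElementStatement := by
  intro L _ _ _ σ T ε hε
  classical
  have hn0 : orderOf σ ≠ 0 := (orderOf_pos σ).ne'
  have hnpos : (0 : ℝ) < (orderOf σ : ℝ) := by exact_mod_cast orderOf_pos σ
  have hZpos : 0 < Nat.card (Subgroup.centralizer ({σ} : Set (L ≃ₐ[ℚ] L))) := Nat.card_pos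
  have hZ1 : (1 : ℝ) ≤ (Nat.card (Subgroup.centralizer ({σ} : Set (L ≃ₐ[ℚ] L))) : ℝ) := by
    exact_mod_cast hZpos
  -- the exponent `k`
  obtain ⟨k₀, hk₀⟩ := exists_pow_lt_of_lt_one
    (show (0 : ℝ) < ε / (2 * (orderOf σ : ℝ)) by positivity) (show (1 / 2 : ℝ) < 1 by norm_num)
  have hk : (orderOf σ : ℝ) / 2 ^ (k₀ + 1) < ε / 2 := by
    have h1 : (1 / 2 : ℝ) ^ (k₀ + 1) ≤ (1 / 2 : ℝ) ^ k₀ :=
      pow_le_pow_of_le_one (by norm_num) (by norm_num) (Nat.le_succ k₀)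
    have h2 : (1 / 2 : ℝ) ^ (k₀ + 1) < ε / (2 * (orderOf σ : ℝ)) := lt_of_le_of_lt h1 hk₀
    have h3 : (orderOf σ : ℝ) / 2 ^ (k₀ + 1) = (orderOf σ : ℝ) * (1 / 2 : ℝ) ^ (k₀ + 1) := by
      rw [one_div, inv_pow]
      rfl
    rw [h3]
    calc (orderOf σ : ℝ) * (1 / 2 : ℝ) ^ (k₀ + 1)
        < (orderOf σ : ℝ) * (ε / (2 * (orderOf σ : ℝ))) := mul_lt_mul_of_pos_left h2 hnpos
      _ = ε / 2 := by field_simp
  -- the auxiliary prime `m`
  obtain ⟨m, hmprime, hmB, hm1⟩ :=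
    Nat.exists_prime_gt_modEq_one ((NumberField.discr L).natAbs + 2) (pow_ne_zero (k₀ + 1) hn0)
  have hmfact : Fact m.Prime := ⟨hmprime⟩
  have : NeZero m := ⟨hmprime.ne_zero⟩
  have hd0 : NumberField.discr L ≠ 0 := NumberField.discr_ne_zero L
  have hdisc : ¬ (m : ℤ) ∣ NumberField.discr L := by
    intro hd
    have h1 : m ∣ (NumberField.discr L).natAbs := by
      have := Int.natAbs_dvd_natAbs.mpr hd
      simpa using this
    have h2 := Nat.le_of_dvd (Int.natAbs_pos.mpr hd0) h1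
    omega
  have hnk : orderOf σ ^ (k₀ + 1) ∣ m - 1 := (Nat.modEq_iff_dvd' hmprime.one_lt.le).mp hm1.symm
  have hm1pos : (0 : ℝ) < ((m - 1 : ℕ) : ℝ) := by
    exact_mod_cast Nat.sub_pos_of_lt hmprime.one_lt
  -- the field `M = L(ζ_m)`
  let M := CyclotomicField m L
  have hdeg : Module.finrank L M = m - 1 := finrank_cyclotomic_of_not_dvd_discr L m hdisc M
  have hgal : IsGalois ℚ M := isGalois_rat_cyclotomic L m M
  obtain ⟨ζ, hζ⟩ := IsCyclotomicExtension.exists_isPrimitiveRoot L M (Set.mem_singleton m)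
    (NeZero.ne m)
  choose g hgL hgτ using fun τ : (ZMod m)ˣ => exists_aut_extending hdeg hζ σ τ
  -- the good units and the enlarged exceptional set
  set good := (Finset.univ : Finset (ZMod m)ˣ).filter (fun τ => orderOf σ ∣ orderOf τ) with hgood
  set T' : Finset ℕ := insert m (T ∪ (NumberField.discr L).natAbs.primeFactors) with hT'
  have hTT' : T ⊆ T' := fun x hx => Finset.mem_insert_of_mem (Finset.mem_union_left _ hx)
  have hmT' : m ∈ T' := Finset.mem_insert_self _ _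
  have hdiscT' : ∀ p : ℕ, p.Prime → p ∉ T' → ¬ ((p : ℤ) ∣ NumberField.discr L) := by
    intro p hp hpT hdvd
    apply hpT
    apply Finset.mem_insert_of_mem
    apply Finset.mem_union_right
    rw [Nat.mem_primeFactors]
    exact ⟨hp, Int.natCast_dvd.mp hdvd, by simpa using hd0⟩
  -- the lower bound for every good `τ`
  have hper : ∀ τ : (ZMod m)ˣ, ∃ B δ : ℝ, 0 < δ ∧ (τ ∈ good → ∀ s : ℝ, 1 < s → s < 1 + δ →
      Real.log (1 / (s - 1)) /
        ((Nat.card (Subgroup.centralizer ({σ} : Set (L ≃ₐ[ℚ] L))) : ℝ) * ((m - 1 : ℕ) : ℝ)) - B ≤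
          frobSum M {g τ} T' s) := by
    intro τ
    by_cases hτ : τ ∈ good
    · have hfaith := faithful_of_dvd_orderOf hζ σ (g τ) τ (hgL τ) (hgτ τ)
        (Finset.mem_filter.mp hτ).2
      have hga := apply_zeta_eq hζ (g τ) τ (hgτ τ)
      have hZb : (Nat.card (Subgroup.centralizer ({g τ} : Set (M ≃ₐ[ℚ] M))) : ℝ) ≤
          (Nat.card (Subgroup.centralizer ({σ} : Set (L ≃ₐ[ℚ] L))) : ℝ) * ((m - 1 : ℕ) : ℝ) := by
        exact_mod_cast card_centralizer_le hζ σ (g τ) (hgL τ)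
      obtain ⟨B, δ, hδ, h⟩ :=
        frobSum_lower_of_faithful hC hF hζ (g τ) hfaith (τ : ZMod m) hga T' _ hZb
      exact ⟨B, δ, hδ, fun _ => h⟩
    · exact ⟨0, 1, one_pos, fun h => absurd h hτ⟩
  choose B δ hδ hB using hper
  set Btot : ℝ := |∑ τ ∈ good, B τ| + 1 with hBtot_def
  have hBtot : 0 < Btot := by positivity
  set δ₀ : ℝ := (Finset.univ : Finset (ZMod m)ˣ).inf' ⟨1, Finset.mem_univ _⟩ δ with hδ₀_def
  have hδ₀ : 0 < δ₀ := (Finset.lt_inf'_iff _).mpr (fun τ _ => hδ τ)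
  refine ⟨min (min δ₀ 1) (Real.exp (-(2 * Btot / ε))),
    lt_min (lt_min hδ₀ one_pos) (Real.exp_pos _), fun s hs1 hs2 => ?_⟩
  have hsδ₀ : s < 1 + δ₀ :=
    lt_of_lt_of_le hs2 (by gcongr; exact (min_le_left _ _).trans (min_le_left _ _))
  have hs2' : s < 1 + 1 :=
    lt_of_lt_of_le hs2 (by gcongr; exact (min_le_left _ _).trans (min_le_right _ _))
  have hse : s - 1 < Real.exp (-(2 * Btot / ε)) := by
    have : s < 1 + Real.exp (-(2 * Btot / ε)) :=
      lt_of_lt_of_le hs2 (by gcongr; exact min_le_right _ _)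
    linarith
  have hs0 : 0 < s - 1 := by linarith
  set ℓ := Real.log (1 / (s - 1)) with hℓ
  have hℓ0 : 0 ≤ ℓ := by
    apply Real.log_nonneg
    rw [le_div_iff₀ hs0]
    linarith
  have hℓbig : 2 * Btot / ε ≤ ℓ := by
    have h1 : Real.log (s - 1) < -(2 * Btot / ε) := by
      rw [Real.log_lt_iff_lt_exp hs0]
      exact hse
    rw [hℓ, one_div, Real.log_inv]
    linarith
  have hεℓ : Btot ≤ ε / 2 * ℓ := by
    have := mul_le_mul_of_nonneg_left hℓbig (by positivity : (0 : ℝ) ≤ ε / 2)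
    have h2 : ε / 2 * (2 * Btot / ε) = Btot := by field_simp
    linarith
  -- sum over the good units
  have hsum := sum_frobSum_le hζ σ g hgL hgτ good T T' hTT' hmT' hdiscT' s hs1
  have hlow : ∑ τ ∈ good, (ℓ /
      ((Nat.card (Subgroup.centralizer ({σ} : Set (L ≃ₐ[ℚ] L))) : ℝ) * ((m - 1 : ℕ) : ℝ)) - B τ) ≤
        ∑ τ ∈ good, frobSum M {g τ} T' s := by
    apply Finset.sum_le_sum
    intro τ hτ
    refine hB τ hτ s hs1 (lt_of_lt_of_le hsδ₀ ?_)
    gcongr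
    exact Finset.inf'_le _ (Finset.mem_univ τ)
  rw [Finset.sum_sub_distrib, Finset.sum_const, nsmul_eq_mul] at hlow
  -- counting
  have hcount : ((m - 1 : ℕ) : ℝ) * (1 - ε / 2) ≤ (good.card : ℝ) := by
    have hbad := card_bad_units_le m (orderOf σ) (k₀ + 1) (Nat.succ_pos k₀) hnk
    have htot : good.card +
        ((Finset.univ : Finset (ZMod m)ˣ).filter (fun τ => ¬ orderOf σ ∣ orderOf τ)).card =
          m - 1 := by
      rw [hgood, Finset.card_filter_add_card_filter_not, Finset.card_univ,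
        ZMod.card_units_eq_totient, Nat.totient_prime hmprime]
    have htot' : (good.card : ℝ) +
        (((Finset.univ : Finset (ZMod m)ˣ).filter (fun τ => ¬ orderOf σ ∣ orderOf τ)).card : ℝ) =
          ((m - 1 : ℕ) : ℝ) := by exact_mod_cast htot
    have h1 : (orderOf σ : ℝ) * ((m - 1 : ℕ) : ℝ) / 2 ^ (k₀ + 1) ≤
        ε / 2 * ((m - 1 : ℕ) : ℝ) := by
      have : (orderOf σ : ℝ) * ((m - 1 : ℕ) : ℝ) / 2 ^ (k₀ + 1) =
          (orderOf σ : ℝ) / 2 ^ (k₀ + 1) * ((m - 1 : ℕ) : ℝ) := by ring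
      rw [this]
      exact mul_le_mul_of_nonneg_right hk.le hm1pos.le
    linarith
  set Zr : ℝ := (Nat.card (Subgroup.centralizer ({σ} : Set (L ≃ₐ[ℚ] L))) : ℝ) with hZr
  have hZr0 : 0 < Zr := by linarith
  have ha : (1 - ε / 2) * (ℓ / Zr) ≤ (good.card : ℝ) * (ℓ / (Zr * ((m - 1 : ℕ) : ℝ))) := by
    have h1 : (0 : ℝ) ≤ ℓ / (Zr * ((m - 1 : ℕ) : ℝ)) := by positivity
    have h2 := mul_le_mul_of_nonneg_right hcount h1
    have h3 : ((m - 1 : ℕ) : ℝ) * (1 - ε / 2) * (ℓ / (Zr * ((m - 1 : ℕ) : ℝ))) =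
        (1 - ε / 2) * (ℓ / Zr) := by
      field_simp
    rw [h3] at h2
    exact h2
  have hb : ℓ / Zr ≤ ℓ := div_le_self hℓ0 hZ1
  have hc : 0 ≤ ℓ / Zr := by positivity
  have hBsum : ∑ τ ∈ good, B τ ≤ Btot := by
    have := le_abs_self (∑ τ ∈ good, B τ)
    linarith
  have hfinal : (1 / Zr - ε) * ℓ ≤ (good.card : ℝ) * (ℓ / (Zr * ((m - 1 : ℕ) : ℝ))) -
      ∑ τ ∈ good, B τ := by
    have h1 : (1 / Zr - ε) * ℓ = ℓ / Zr - ε * ℓ := by ring
    have h2 : (1 - ε / 2) * (ℓ / Zr) = ℓ / Zr - ε / 2 * (ℓ / Zr) := by ring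
    have h3 : ε / 2 * (ℓ / Zr) ≤ ε / 2 * ℓ :=
      mul_le_mul_of_nonneg_left hb (by positivity)
    rw [h1]
    linarith
  exact hfinal.trans (hlow.trans hsum)

end Fermat.Agent.H5.Cheb2
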